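import Mathlib

/-!
# Row S26, block LS (helper566): rational functions regular on an open set are sections

`X` an integral scheme.  A rational function `f ∈ K(X)` is *regular at* `x` if it lies in the
image of the stalk `O_x → K(X)`.

* `exists_section_of_regularAt_affine` / `exists_section_of_regularAt` : a rational function
  regular at every point of an open `V` is (the germ of) a section over `V`.
-/

set_option autoImplicit false
set_option linter.style.haveILetI false
universe u

open CategoryTheory AlgebraicGeometry TopologicalSpace Opposite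

namespace Fermat.Agent.S26.H566

variable {X : Scheme.{u}} [IsIntegral X]

/-- The rational function `f` is regular at `x`. -/
def RegularAt (f : X.functionField) (x : X) : Prop :=
  f ∈ Set.range (algebraMap (X.presheaf.stalk x) X.functionField)

theorem regularAt_germ {U : X.Opens} (s : Γ(X, U)) (x : X) (hx : x ∈ U) :
    RegularAt (algebraMap (X.presheaf.stalk x) X.functionField (X.presheaf.germ U x hx s)) x :=
  ⟨_, rfl⟩

/-- The germ at the generic point of a section over a nonempty open is the image of its germ at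
any point. -/
theorem algebraMap_germ {U : X.Opens} (s : Γ(X, U)) (x : X) (hx : x ∈ U) :
    algebraMap (X.presheaf.stalk x) X.functionField (X.presheaf.germ U x hx s) =
      X.presheaf.germ U (genericPoint X)
        (((genericPoint_spec X).mem_open_set_iff U.isOpen).mpr ⟨x, Set.mem_univ x, hx⟩) s := by
  haveI : Nonempty U := ⟨⟨x, hx⟩⟩
  exact Scheme.algebraMap_germ_eq_germToFunctionField X hx s

theorem exists_section_of_regularAt_affine {U : X.Opens} (hU : IsAffineOpen U)
    (f : X.functionField) (hf : ∀ x ∈ U, RegularAt f x) :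
    ∃ s : Γ(X, U), ∀ (x : X) (hx : x ∈ U),
      algebraMap (X.presheaf.stalk x) X.functionField (X.presheaf.germ U x hx s) = f := by
  by_cases hne : Nonempty U
  swap
  · exact ⟨0, fun x hx => absurd ⟨⟨x, hx⟩⟩ hne⟩
  haveI := hne
  haveI := functionField_isFractionRing_of_isAffineOpen X U hU
  -- the ideal of denominators
  let denom : Ideal Γ(X, U) :=
    (1 : Submodule Γ(X, U) X.functionField).comap
      (LinearMap.toSpanSingleton Γ(X, U) X.functionField f)
  have hmem : ∀ r : Γ(X, U), r ∈ denom ↔
      ∃ s : Γ(X, U), algebraMap Γ(X, U) X.functionField s = r • f := by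
    intro r
    simp only [denom, Submodule.mem_comap, LinearMap.toSpanSingleton_apply, Submodule.mem_one]
  suffices h1 : (1 : Γ(X, U)) ∈ denom by
    obtain ⟨s, hs⟩ := (hmem 1).1 h1
    rw [one_smul] at hs
    refine ⟨s, fun x hx => ?_⟩
    rw [Scheme.algebraMap_germ_eq_germToFunctionField X hx s]
    exact hs
  by_contra h1
  obtain ⟨m, hm, hle⟩ := denom.exists_le_maximal ((Ideal.ne_top_iff_one _).mpr h1)
  let y : PrimeSpectrum Γ(X, U) := ⟨m, hm.isPrime⟩
  obtain ⟨x₀, hx₀⟩ : ∃ x₀ : U, hU.primeIdealOf x₀ = y := by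
    refine ⟨hU.isoSpec.inv y, ?_⟩
    show hU.isoSpec.hom (hU.isoSpec.inv y) = y
    rw [← Scheme.Hom.comp_apply, Iso.inv_hom_id]
    rfl
  haveI hloc : IsLocalization.AtPrime (X.presheaf.stalk (x₀ : X)) (hU.primeIdealOf x₀).asIdeal :=
    hU.isLocalization_stalk x₀
  obtain ⟨g, hg⟩ := hf _ x₀.2
  obtain ⟨⟨a, s⟩, has⟩ := IsLocalization.surj (M := (hU.primeIdealOf x₀).asIdeal.primeCompl)
    (S := X.presheaf.stalk (x₀ : X)) g
  have hs : (s : Γ(X, U)) ∈ denom := by
    rw [hmem]
    refine ⟨a, ?_⟩
    have h3 := congrArg (algebraMap (X.presheaf.stalk (x₀ : X)) X.functionField) has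
    rw [map_mul, hg] at h3
    have e1 : ∀ r : Γ(X, U), algebraMap (X.presheaf.stalk (x₀ : X)) X.functionField
        (algebraMap Γ(X, U) (X.presheaf.stalk (x₀ : X)) r) =
          algebraMap Γ(X, U) X.functionField r := fun r =>
      (IsScalarTower.algebraMap_apply Γ(X, U)
        (X.presheaf.stalk (x₀ : X)) X.functionField r).symm
    rw [e1, e1] at h3
    rw [Algebra.smul_def, mul_comm, h3]
  have hs' : (s : Γ(X, U)) ∉ y.asIdeal := by
    have h4 : (s : Γ(X, U)) ∉ (hU.primeIdealOf x₀).asIdeal := s.2
    have h6 : ∀ t : Γ(X, U), t ∈ y.asIdeal → t ∈ (hU.primeIdealOf x₀).asIdeal :=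
      fun t ht => by rw [hx₀]; exact ht
    exact fun h5 => h4 (h6 _ h5)
  exact hs' (hle hs)

theorem genericPoint_mem {U : X.Opens} {x : X} (hx : x ∈ U) : genericPoint X ∈ U :=
  ((genericPoint_spec X).mem_open_set_iff U.isOpen).mpr ⟨x, Set.mem_univ x, hx⟩

theorem algebraMap_stalk_injective (x : X) :
    Function.Injective (algebraMap (X.presheaf.stalk x) X.functionField) :=
  IsFractionRing.injective (X.presheaf.stalk x) X.functionField

/-- Two sections over `U` with the same image in the function field (at some point) agree. -/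
theorem section_ext {U : X.Opens} (s t : Γ(X, U)) (x : X) (hx : x ∈ U)
    (h : algebraMap (X.presheaf.stalk x) X.functionField (X.presheaf.germ U x hx s) =
      algebraMap (X.presheaf.stalk x) X.functionField (X.presheaf.germ U x hx t)) : s = t :=
  germ_injective_of_isIntegral X x hx (algebraMap_stalk_injective x h)

theorem algebraMap_germ_res {U V : X.Opens} (h : U ≤ V) (s : Γ(X, V)) (x : X) (hx : x ∈ U) :
    algebraMap (X.presheaf.stalk x) X.functionField
        (X.presheaf.germ U x hx (X.presheaf.map (homOfLE h).op s)) =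
      algebraMap (X.presheaf.stalk x) X.functionField (X.presheaf.germ V x (h hx) s) := by
  rw [TopCat.Presheaf.germ_res_apply]

/-- A rational function which is regular at every point of the open `V` is a section
over `V`. -/
theorem exists_section_of_regularAt (V : X.Opens) (f : X.functionField)
    (hf : ∀ x ∈ V, RegularAt f x) :
    ∃ s : Γ(X, V), ∀ (x : X) (hx : x ∈ V),
      algebraMap (X.presheaf.stalk x) X.functionField (X.presheaf.germ V x hx s) = f := by
  have hcov : ∀ x : V, ∃ W : X.Opens, IsAffineOpen W ∧ (x : X) ∈ W ∧ W ≤ V := by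
    intro x
    obtain ⟨_, ⟨W, hW, rfl⟩, hxW, hWV⟩ :=
      X.isBasis_affineOpens.exists_subset_of_mem_open x.2 V.2
    exact ⟨W, hW, hxW, hWV⟩
  choose W hW hxW hWV using hcov
  have hsec : ∀ x : V, ∃ s : Γ(X, W x), ∀ (z : X) (hz : z ∈ W x),
      algebraMap (X.presheaf.stalk z) X.functionField (X.presheaf.germ (W x) z hz s) = f :=
    fun x => exists_section_of_regularAt_affine (hW x) f (fun z hz => hf z (hWV x hz))
  choose sf hsf using hsec
  have hcompat : TopCat.Presheaf.IsCompatible X.presheaf W sf := by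
    intro x y
    have hz : genericPoint X ∈ W x ⊓ W y := ⟨genericPoint_mem (hxW x), genericPoint_mem (hxW y)⟩
    apply section_ext _ _ (genericPoint X) hz
    rw [TopCat.Presheaf.germ_res_apply, TopCat.Presheaf.germ_res_apply, hsf x, hsf y]
  obtain ⟨s, hs, -⟩ := X.sheaf.existsUnique_gluing' W V (fun x => homOfLE (hWV x))
    (fun z hz => Opens.mem_iSup.mpr ⟨⟨z, hz⟩, hxW ⟨z, hz⟩⟩) sf hcompat
  refine ⟨s, fun x hx => ?_⟩
  have h1 := hs ⟨x, hx⟩
  rw [← hsf ⟨x, hx⟩ x (hxW ⟨x, hx⟩), ← h1]
  exact (algebraMap_germ_res (hWV ⟨x, hx⟩) s x (hxW ⟨x, hx⟩)).symm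

end Fermat.Agent.S26.H566
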