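import Fermat.Agent.S26.SpecDeg
import Fermat.Agent.S26.H566.Regular

/-!
# Row S26, block LS / BETA, leaf LS2 (helper566): sections in the span have affine loci

`X` an integral scheme, `w : ι → K(X)` a *good* system (`LS.Good`, `SpecDeg.lean`) indexed by a
finite type, `u = Σ_b c_b w_b` a linear combination with coefficients `c_b ∈ Γ(X, ⊤)` (for
instance constants of the base field, or functions on the base `T` for `X × T`).  Then the
locus `D(u) = {x | u ≠ 0 ∧ I_w(x) = O_x u}` where the section `u` generates is an affine open.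

* `GenBy w x u` : `u` generates the system `w` at `x` (so `LS.GenAt w x b ↔ GenBy w x (w b)`).
* `exists_isAffineOpen_genBy` : **LS2**.
* `good_of_linearCombination` : a base point free family of linear combinations of a good system
  is a good system generating the same fractional ideal sheaf.
* `exists_isAffineOpen_genBy_ffStr`, `good_of_linearCombination_ffStr` : the same with constant
  coefficients `c_b ∈ K` (through `ffStr str`).
-/

set_option autoImplicit false
set_option linter.style.haveILetI false
universe u

open CategoryTheory AlgebraicGeometry TopologicalSpace Opposite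

namespace Fermat.Agent.S26.H566

open Fermat.Agent.S26

variable {X : Scheme.{u}} [IsIntegral X] {ι ι' : Type}

/-- The image in the function field of a global section. -/
noncomputable def gcoef (c : Γ(X, ⊤)) : X.functionField :=
  X.presheaf.germ ⊤ (genericPoint X) (Opens.mem_top _) c

theorem gcoef_eq_algebraMap (c : Γ(X, ⊤)) (x : X) :
    gcoef c = algebraMap (X.presheaf.stalk x) X.functionField
      (X.presheaf.germ ⊤ x (Opens.mem_top _) c) :=
  (algebraMap_germ c x (Opens.mem_top _)).symm

/-- The rational function `u` generates the system `w` at `x`. -/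
def GenBy (w : ι → X.functionField) (x : X) (u : X.functionField) : Prop :=
  u ≠ 0 ∧ LS.span w x = Submodule.span (X.presheaf.stalk x) {u}

theorem genAt_iff_genBy (w : ι → X.functionField) (x : X) (b : ι) :
    LS.GenAt w x b ↔ GenBy w x (w b) := Iff.rfl

theorem mem_span_self (w : ι → X.functionField) (x : X) (b : ι) : w b ∈ LS.span w x :=
  Submodule.subset_span ⟨b, rfl⟩

theorem gcoef_mul_mem_span (w : ι → X.functionField) (x : X) (c : Γ(X, ⊤)) (b : ι) :
    gcoef c * w b ∈ LS.span w x := by
  rw [gcoef_eq_algebraMap c x, ← Algebra.smul_def]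
  exact Submodule.smul_mem _ _ (mem_span_self w x b)

theorem sum_gcoef_mul_mem_span [Fintype ι] (w : ι → X.functionField) (x : X)
    (c : ι → Γ(X, ⊤)) : ∑ b, gcoef (c b) * w b ∈ LS.span w x :=
  Submodule.sum_mem _ fun b _ => gcoef_mul_mem_span w x (c b) b

/-- Division by a generator. -/
theorem regularAt_div_of_mem_span {x : X} {a v : X.functionField} (ha : a ≠ 0)
    (hv : v ∈ Submodule.span (X.presheaf.stalk x) {a}) : RegularAt (v / a) x := by
  obtain ⟨r, rfl⟩ := Submodule.mem_span_singleton.mp hv
  refine ⟨r, ?_⟩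
  rw [Algebra.smul_def, mul_div_assoc, div_self ha, mul_one]

/-- If `a` and `b = r • a` generate the same submodule, `r` is a unit. -/
theorem isUnit_of_span_eq {x : X} {a : X.functionField} (ha : a ≠ 0)
    (r : X.presheaf.stalk x)
    (h : Submodule.span (X.presheaf.stalk x) {r • a} = Submodule.span (X.presheaf.stalk x) {a}) :
    IsUnit r := by
  have h1 : a ∈ Submodule.span (X.presheaf.stalk x) {r • a} := by
    rw [h]; exact Submodule.mem_span_singleton_self a
  obtain ⟨r', hr'⟩ := Submodule.mem_span_singleton.mp h1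
  rw [smul_smul, Algebra.smul_def] at hr'
  have h2 : algebraMap (X.presheaf.stalk x) X.functionField (r' * r) = 1 :=
    mul_right_cancel₀ ha (by rw [hr', one_mul])
  have h3 : r' * r = 1 := algebraMap_stalk_injective x (by rw [h2, map_one])
  exact IsUnit.of_mul_eq_one r' (by rw [mul_comm]; exact h3)

theorem span_smul_eq_of_isUnit {x : X} (a : X.functionField) {r : X.presheaf.stalk x}
    (hr : IsUnit r) :
    Submodule.span (X.presheaf.stalk x) {r • a} = Submodule.span (X.presheaf.stalk x) {a} :=
  Submodule.span_singleton_smul_eq hr a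

theorem smul_ne_zero_of_isUnit {x : X} {a : X.functionField} (ha : a ≠ 0)
    {r : X.presheaf.stalk x} (hr : IsUnit r) : r • a ≠ 0 := by
  rw [Algebra.smul_def]
  refine mul_ne_zero ?_ ha
  intro h0
  have : r = 0 := algebraMap_stalk_injective x (by rw [h0, map_zero])
  exact hr.ne_zero this

/-- Key local computation: if `a` generates at `x` and `v = r • a`, then `v` generates at `x`
iff `r` is a unit. -/
theorem genBy_smul_iff {w : ι → X.functionField} {x : X} {a : X.functionField}
    (ha : GenBy w x a) (r : X.presheaf.stalk x) : GenBy w x (r • a) ↔ IsUnit r := by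
  constructor
  · rintro ⟨-, h⟩
    exact isUnit_of_span_eq ha.1 r (h.symm.trans ha.2)
  · intro hr
    exact ⟨smul_ne_zero_of_isUnit ha.1 hr, ha.2.trans (span_smul_eq_of_isUnit a hr).symm⟩

/-- If `a` generates at `x`, `v` lies in the span and `s` is a section near `x` with germ
`v / a`, then `v` generates at `x` iff `s` is invertible at `x`. -/
theorem genBy_iff_isUnit_germ {w : ι → X.functionField} {x : X} {a v : X.functionField}
    (ha : GenBy w x a) {U : X.Opens} (hx : x ∈ U) (s : Γ(X, U))
    (hs : algebraMap (X.presheaf.stalk x) X.functionField (X.presheaf.germ U x hx s) = v / a) :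
    GenBy w x v ↔ IsUnit (X.presheaf.germ U x hx s) := by
  have hv : v = (X.presheaf.germ U x hx s) • a := by
    rw [Algebra.smul_def, hs, div_mul_cancel₀ v ha.1]
  rw [← genBy_smul_iff ha, ← hv]

/-- **LS2.** For a good system `w` and a linear combination `u = Σ c_b w_b` with coefficients
global sections, the locus where `u` generates is an affine open. -/
theorem exists_isAffineOpen_genBy [Fintype ι] (w : ι → X.functionField) (hw : LS.Good w)
    (c : ι → Γ(X, ⊤)) :
    ∃ U : X.Opens, IsAffineOpen U ∧ ∀ x, x ∈ U ↔ GenBy w x (∑ b, gcoef (c b) * w b) := by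
  classical
  set u : X.functionField := ∑ b, gcoef (c b) * w b with hu
  obtain ⟨hbpf, haff⟩ := hw
  choose Ub hUb hmemb using haff
  have hgen : ∀ b x, x ∈ Ub b → GenBy w x (w b) := fun b x hx => (hmemb b x).1 hx
  have humem : ∀ x, u ∈ LS.span w x := fun x => sum_gcoef_mul_mem_span w x c
  -- the functions `u / w_b` on `U_b`
  have hg : ∀ b, ∃ g : Γ(X, Ub b), ∀ (x : X) (hx : x ∈ Ub b),
      algebraMap (X.presheaf.stalk x) X.functionField (X.presheaf.germ (Ub b) x hx g) =
        u / w b := fun b =>
    exists_section_of_regularAt (Ub b) (u / w b) fun x hx =>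
      regularAt_div_of_mem_span (hgen b x hx).1 ((hgen b x hx).2 ▸ humem x)
  choose g hg using hg
  -- the locus
  let V : X.Opens := ⨆ b, X.basicOpen (g b)
  have hbasic : ∀ b x, x ∈ X.basicOpen (g b) ↔ x ∈ Ub b ∧ GenBy w x u := by
    intro b x
    rw [Scheme.mem_basicOpen'']
    constructor
    · rintro ⟨hx, hunit⟩
      exact ⟨hx, (genBy_iff_isUnit_germ (hgen b x hx) hx (g b) (hg b x hx)).2 hunit⟩
    · rintro ⟨hx, hgb⟩
      exact ⟨hx, (genBy_iff_isUnit_germ (hgen b x hx) hx (g b) (hg b x hx)).1 hgb⟩
  have hV : ∀ x, x ∈ V ↔ GenBy w x u := by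
    intro x
    rw [Opens.mem_iSup]
    constructor
    · rintro ⟨b, hb⟩
      exact ((hbasic b x).1 hb).2
    · intro hx
      obtain ⟨b, hb⟩ := hbpf x
      exact ⟨b, (hbasic b x).2 ⟨(hmemb b x).2 hb, hx⟩⟩
  refine ⟨V, ?_, hV⟩
  -- the functions `w_b / u` on `V`
  have hf : ∀ b, ∃ f : Γ(X, V), ∀ (x : X) (hx : x ∈ V),
      algebraMap (X.presheaf.stalk x) X.functionField (X.presheaf.germ V x hx f) =
        w b / u := fun b =>
    exists_section_of_regularAt V (w b / u) fun x hx =>
      regularAt_div_of_mem_span ((hV x).1 hx).1 (((hV x).1 hx).2 ▸ mem_span_self w x b)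
  choose f hf using hf
  -- basic opens of the `f b`
  have hfb : ∀ b, X.basicOpen (f b) = X.basicOpen (g b) := by
    intro b
    ext x
    simp only [SetLike.mem_coe]
    rw [hbasic b x, Scheme.mem_basicOpen'']
    constructor
    · rintro ⟨hx, hunit⟩
      have hxu := (hV x).1 hx
      have hwb : GenBy w x (w b) :=
        (genBy_iff_isUnit_germ hxu hx (f b) (hf b x hx)).2 hunit
      exact ⟨(hmemb b x).2 hwb, hxu⟩
    · rintro ⟨hx, hxu⟩
      have hxV : x ∈ V := (hV x).2 hxu
      exact ⟨hxV, (genBy_iff_isUnit_germ hxu hxV (f b) (hf b x hxV)).1 (hgen b x hx)⟩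
  by_cases hne : ∃ x, x ∈ V
  swap
  · have hbot : V = ⊥ := by
      ext x
      simp only [SetLike.mem_coe]
      constructor
      · intro hx; exact absurd ⟨x, hx⟩ hne
      · intro hx; exact absurd hx (by simp)
    rw [hbot]
    exact isAffineOpen_bot X
  obtain ⟨x₀, hx₀⟩ := hne
  have hu0 : u ≠ 0 := ((hV x₀).1 hx₀).1
  refine isAffineOpen_of_isAffineOpen_basicOpen V (Set.range f) ?_ ?_
  · -- the `f b` generate the unit ideal: `1 = Σ c_b f_b`
    rw [Ideal.eq_top_iff_one]
    have hone : (1 : Γ(X, V)) = ∑ b, X.presheaf.map (homOfLE le_top).op (c b) * f b := by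
      apply section_ext _ _ x₀ hx₀
      rw [map_one, map_one, map_sum, map_sum]
      have hterm : ∀ b, algebraMap (X.presheaf.stalk x₀) X.functionField
          (X.presheaf.germ V x₀ hx₀ (X.presheaf.map (homOfLE le_top).op (c b) * f b)) =
            gcoef (c b) * w b / u := by
        intro b
        rw [map_mul, map_mul, hf b x₀ hx₀, TopCat.Presheaf.germ_res_apply,
          ← gcoef_eq_algebraMap (c b) x₀, mul_div_assoc]
      rw [Finset.sum_congr rfl (fun b _ => hterm b), ← Finset.sum_div, ← hu, div_self hu0]
    rw [hone]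
    exact Ideal.sum_mem _ fun b _ => Ideal.mul_mem_left _ _ (Ideal.subset_span ⟨b, rfl⟩)
  · rintro _ ⟨b, rfl⟩
    rw [hfb b]
    exact (hUb b).basicOpen (g b)

end Fermat.Agent.S26.H566

namespace Fermat.Agent.S26.H566

open Fermat.Agent.S26

variable {X : Scheme.{u}} [IsIntegral X] {ι ι' : Type}

/-- If every member of `v` lies in the span of `w` at `x` and some member of `v` generates `w`
at `x`, then `v` and `w` have the same span at `x`. -/
theorem span_eq_of_genBy {w : ι → X.functionField} {v : ι' → X.functionField} {x : X}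
    (hv : ∀ j, v j ∈ LS.span w x) {j : ι'} (hj : GenBy w x (v j)) :
    LS.span v x = LS.span w x := by
  apply le_antisymm
  · exact Submodule.span_le.mpr (by rintro _ ⟨i, rfl⟩; exact hv i)
  · rw [hj.2]
    exact Submodule.span_le.mpr (by
      rintro _ rfl
      exact Submodule.subset_span ⟨j, rfl⟩)

/-- **LS2, system form.** A family `v` of linear combinations (with global sections as
coefficients) of a good system `w`, without common zero, is a good system which generates the
same fractional ideal sheaf as `w`. -/
theorem good_of_linearCombination [Fintype ι] (w : ι → X.functionField) (hw : LS.Good w)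
    (c : ι' → ι → Γ(X, ⊤)) (v : ι' → X.functionField)
    (hv : ∀ j, v j = ∑ b, gcoef (c j b) * w b)
    (hbpf : ∀ x, ∃ j, GenBy w x (v j)) :
    LS.Good v ∧ LS.Same v w := by
  have hmem : ∀ x j, v j ∈ LS.span w x := fun x j => by
    rw [hv j]; exact sum_gcoef_mul_mem_span w x (c j)
  have hsame : LS.Same v w := fun x => by
    obtain ⟨j, hj⟩ := hbpf x
    exact span_eq_of_genBy (hmem x) hj
  have hiff : ∀ x j, LS.GenAt v x j ↔ GenBy w x (v j) := fun x j => by
    unfold LS.GenAt GenBy
    rw [hsame x]
  refine ⟨⟨fun x => ?_, fun j => ?_⟩, hsame⟩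
  · obtain ⟨j, hj⟩ := hbpf x
    exact ⟨j, (hiff x j).2 hj⟩
  · obtain ⟨U, hU, hUx⟩ := exists_isAffineOpen_genBy w hw (c j)
    refine ⟨U, hU, fun x => ?_⟩
    rw [hUx x, ← hv j, hiff x j]

/-! ### Constant coefficients -/

section Const

variable {K : Type u} [Field K] (str : X ⟶ Spec (CommRingCat.of K))

/-- The global section of `X` defined by a constant. -/
noncomputable def constSection (a : K) : Γ(X, ⊤) :=
  str.appTop ((Scheme.ΓSpecIso (CommRingCat.of K)).inv a)

theorem gcoef_constSection (a : K) : gcoef (constSection str a) = ffStr str a := rfl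

/-- **LS2 with constant coefficients.** -/
theorem exists_isAffineOpen_genBy_ffStr [Fintype ι] (w : ι → X.functionField)
    (hw : LS.Good w) (c : ι → K) :
    ∃ U : X.Opens, IsAffineOpen U ∧ ∀ x, x ∈ U ↔ GenBy w x (∑ b, ffStr str (c b) * w b) :=
  exists_isAffineOpen_genBy w hw (fun b => constSection str (c b))

/-- **LS2, system form, constant coefficients.** -/
theorem good_of_linearCombination_ffStr [Fintype ι] (w : ι → X.functionField)
    (hw : LS.Good w) (c : ι' → ι → K) (v : ι' → X.functionField)
    (hv : ∀ j, v j = ∑ b, ffStr str (c j b) * w b)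
    (hbpf : ∀ x, ∃ j, GenBy w x (v j)) :
    LS.Good v ∧ LS.Same v w :=
  good_of_linearCombination w hw (fun j b => constSection str (c j b)) v hv hbpf

end Const

end Fermat.Agent.S26.H566
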